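/-
RR brick (helper67): WEAK APPROXIMATION for finitely many places of the prelude function-field API
(`AlgebraicCurve.Place K F`), deduced from Mathlib's abstract weak approximation theorem
`AbsoluteValue.denseRange_algebraMap_pi`.

No hypothesis on `K`, `F` beyond `[Field K] [Field F] [Algebra K F]`.
-/
import Mathlib
import Fermat.Prelude.Def_AlgebraicCurve_Repartitions

set_option autoImplicit false

noncomputable section

open AlgebraicCurve WithZero IsDedekindDomain

namespace Fermat.Agent.RRh67

variable {K F : Type*} [Field K] [Field F] [Algebra K F]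

/-! ### membership in the valuation ring -/

theorem mem_toValuationSubring_iff (v : Place K F) (x : F) :
    x ∈ v.toValuationSubring ↔ v.adicValuation x ≤ 1 := by
  refine ⟨v.adicValuation_le_one_of_mem, fun h => ?_⟩
  by_contra hx
  have hx0 : x ≠ 0 := fun h0 => hx (h0 ▸ v.toValuationSubring.zero_mem)
  have hxi : x⁻¹ ∈ v.toValuationSubring := (v.toValuationSubring.mem_or_inv_mem x).resolve_left hx
  -- `x⁻¹` is not a unit of the valuation ring
  have hnu : ¬ IsUnit (⟨x⁻¹, hxi⟩ : v.toValuationSubring) := by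
    intro hu
    obtain ⟨u, hu⟩ := hu
    apply hx
    have h1 : ((u⁻¹ : v.toValuationSubringˣ) : v.toValuationSubring) * ⟨x⁻¹, hxi⟩ = 1 := by
      rw [← hu]; exact u.inv_mul
    have h2 : (((u⁻¹ : v.toValuationSubringˣ) : v.toValuationSubring) : F) * x⁻¹ = 1 := by
      have := congrArg Subtype.val h1
      simpa using this
    have h3 : (((u⁻¹ : v.toValuationSubringˣ) : v.toValuationSubring) : F) = x := by
      field_simp at h2
      exact h2
    rw [← h3]
    exact (((u⁻¹ : v.toValuationSubringˣ) : v.toValuationSubring)).2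
  have hle : v.adicValuation (x⁻¹) ≤ 1 := v.adicValuation_le_one_of_mem hxi
  have hne : v.adicValuation (x⁻¹) ≠ 1 := fun h1 =>
    hnu ((v.adicValuation_coe_eq_one_iff ⟨x⁻¹, hxi⟩).mp h1)
  have hlt : v.adicValuation (x⁻¹) < 1 := lt_of_le_of_ne hle hne
  rw [map_inv₀] at hlt
  have hpos : v.adicValuation x ≠ 0 := v.adicValuation_ne_zero hx0
  have : 1 < v.adicValuation x := by
    rcases lt_or_ge 1 (v.adicValuation x) with h1 | h1
    · exact h1
    · exfalso
      have : (1 : ℤᵐ⁰) ≤ (v.adicValuation x)⁻¹ := by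
        rw [one_le_inv₀ (zero_lt_iff.mpr hpos)]
        exact h1
      exact absurd hlt (not_lt.mpr this)
  exact absurd h (not_le.mpr this)


/-! ### the real absolute value of a place -/

/-- The base `2` used for all the real absolute values. -/
theorem one_lt_two_nnreal : (1 : NNReal) < 2 := by norm_num

/-- The real-valued absolute value `x ↦ 2 ^ (- ord_v x)` attached to a place. -/
def absv (v : Place K F) : AbsoluteValue F ℝ :=
  v.heightOneSpectrum.adicAbv (K := F) one_lt_two_nnreal

theorem absv_apply (v : Place K F) (x : F) :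
    absv v x = (WithZeroMulInt.toNNReal (e := 2) two_ne_zero (v.adicValuation x) : ℝ) := rfl

theorem absv_le_iff (v : Place K F) (x : F) (n : ℤ) :
    absv v x ≤ (2 : ℝ) ^ n ↔ v.adicValuation x ≤ exp n := by
  have hmono := WithZeroMulInt.toNNReal_strictMono one_lt_two_nnreal
  have h2 : ((WithZeroMulInt.toNNReal (e := 2) two_ne_zero (exp n : ℤᵐ⁰) : NNReal) : ℝ)
      = (2 : ℝ) ^ n := by
    rw [WithZeroMulInt.toNNReal_neg_apply two_ne_zero (exp_ne_zero (a := n))]
    simp [WithZero.exp]
  rw [absv_apply, ← h2, NNReal.coe_le_coe, hmono.le_iff_le]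

theorem absv_le_one_iff (v : Place K F) (x : F) :
    absv v x ≤ 1 ↔ x ∈ v.toValuationSubring := by
  have := absv_le_iff v x 0
  rw [zpow_zero, exp_zero] at this
  rw [this, mem_toValuationSubring_iff]

theorem absv_isNontrivial (v : Place K F) : (absv v).IsNontrivial := by
  obtain ⟨π, hπ⟩ := IsDiscreteValuationRing.exists_irreducible v.toValuationSubring
  refine ⟨(π : F), ?_, ?_⟩
  · simpa [ne_eq, ZeroMemClass.coe_eq_zero] using hπ.ne_zero
  · intro h1
    have hle : absv v (π : F) ≤ (2 : ℝ) ^ (-1 : ℤ) := by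
      rw [absv_le_iff, v.adicValuation_coe_irreducible hπ]
    rw [h1] at hle
    norm_num at hle

theorem not_isEquiv_absv {v w : Place K F} (h : v ≠ w) : ¬ (absv v).IsEquiv (absv w) := by
  intro he
  apply h
  apply Place.ext
  ext x
  rw [← absv_le_one_iff, ← absv_le_one_iff]
  exact he.le_one_iff


/-! ### weak approximation -/

/-- **Weak approximation** for finitely many places: given targets `x v` and precisions `n v`,
there is `y : F` with `v (y - x v) ≤ exp (- n v)`, i.e. `ord_v (y - x v) ≥ n v`, for all `v ∈ s`. -/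
theorem exists_approx (s : Finset (Place K F)) (x : Place K F → F) (n : Place K F → ℤ) :
    ∃ y : F, ∀ v ∈ s, v.adicValuation (y - x v) ≤ exp (-(n v)) := by
  classical
  -- a common precision
  obtain ⟨M, hM⟩ : ∃ M : ℤ, ∀ v ∈ s, n v ≤ M := by
    obtain ⟨M, hM⟩ := Finset.exists_le (s.image n)
    exact ⟨M, fun v hv => hM _ (Finset.mem_image_of_mem n hv)⟩
  have hdense := AbsoluteValue.denseRange_algebraMap_pi
    (v := fun i : s => absv (i : Place K F)) (fun i => absv_isNontrivial _)
    (fun i j hij => not_isEquiv_absv (fun h => hij (Subtype.ext h)))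
  have hr : (0 : ℝ) < (2 : ℝ) ^ (-M) := by positivity
  obtain ⟨y, hy⟩ := Metric.denseRange_iff.mp hdense
    (fun i : s => WithAbs.toAbs (absv (i : Place K F)) (x i)) _ hr
  refine ⟨y, fun v hv => ?_⟩
  have h1 := (dist_pi_lt_iff hr).mp hy ⟨v, hv⟩
  rw [dist_eq_norm, WithAbs.norm_eq_apply_ofAbs] at h1
  have h2 : absv v (x v - y) < (2 : ℝ) ^ (-M) := by
    have e : (algebraMap F (WithAbs (absv v)) y).ofAbs = y := rfl
    simpa [e] using h1
  have h3 : absv v (y - x v) ≤ (2 : ℝ) ^ (-(n v)) := by
    rw [← (absv v).map_neg, neg_sub]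
    refine h2.le.trans ?_
    exact zpow_le_zpow_right₀ (by norm_num) (neg_le_neg (hM v hv))
  exact (absv_le_iff v _ _).mp h3


/-! ### prescribing orders -/

theorem adicValuation_zpow_irreducible (v : Place K F) {π : v.toValuationSubring}
    (hπ : Irreducible π) (n : ℤ) : v.adicValuation ((π : F) ^ n) = exp (-n) := by
  rw [map_zpow₀, v.adicValuation_coe_irreducible hπ, ← exp_zsmul]
  simp

/-- An element of exact valuation `exp (-n)` at `v`. -/
theorem exists_adicValuation_eq (v : Place K F) (n : ℤ) :
    ∃ t : F, v.adicValuation t = exp (-n) := by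
  obtain ⟨π, hπ⟩ := IsDiscreteValuationRing.exists_irreducible v.toValuationSubring
  exact ⟨(π : F) ^ n, adicValuation_zpow_irreducible v hπ n⟩

/-- **Prescribed valuations**: there is a nonzero `y` with `v y = exp (- n v)` (that is
`ord_v y = n v`) for all `v` in a given finite set of places. -/
theorem exists_adicValuation_eq_of_finset (s : Finset (Place K F)) (n : Place K F → ℤ) :
    ∃ y : F, y ≠ 0 ∧ ∀ v ∈ s, v.adicValuation y = exp (-(n v)) := by
  classical
  rcases s.eq_empty_or_nonempty with rfl | hs
  · exact ⟨1, one_ne_zero, by simp⟩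
  choose t ht using fun v : Place K F => exists_adicValuation_eq v (n v)
  obtain ⟨y, hy⟩ := exists_approx s t (fun v => n v + 1)
  have hval : ∀ v ∈ s, v.adicValuation y = exp (-(n v)) := by
    intro v hv
    have h1 : v.adicValuation (y - t v) < v.adicValuation (t v) := by
      rw [ht v]
      refine (hy v hv).trans_lt ?_
      rw [exp_lt_exp]
      omega
    have h2 : v.adicValuation (y - t v + t v) = v.adicValuation (t v) :=
      Valuation.map_add_eq_of_lt_right _ h1
    rwa [sub_add_cancel, ht v] at h2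
  refine ⟨y, ?_, hval⟩
  obtain ⟨v, hv⟩ := hs
  intro h0
  have := hval v hv
  rw [h0, map_zero] at this
  exact exp_ne_zero this.symm

theorem exists_ord_eq_of_finset (s : Finset (Place K F)) (n : Place K F → ℤ) :
    ∃ y : F, y ≠ 0 ∧ ∀ v ∈ s, v.ord y = n v := by
  obtain ⟨y, hy0, hy⟩ := exists_adicValuation_eq_of_finset s n
  refine ⟨y, hy0, fun v hv => ?_⟩
  rw [Place.ord, hy v hv, log_exp, neg_neg]

end Fermat.Agent.RRh67
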