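/-
RR brick (helper67): relative quotients `B / A` of nested submodules and additivity of their
dimension along chains `A ≤ B ≤ C` (pure linear algebra, Mathlib only).
-/
import Mathlib

set_option autoImplicit false

noncomputable section

namespace Fermat.Agent.RRh67

variable {K V : Type*} [Field K] [AddCommGroup V] [Module K V]

/-- The relative quotient `B / (A ∩ B)` (used for `A ≤ B`). -/
abbrev RelQ (A B : Submodule K V) : Type _ := ↥B ⧸ A.submoduleOf B

theorem mem_submoduleOf_iff {A B : Submodule K V} (x : ↥B) :
    x ∈ A.submoduleOf B ↔ (x : V) ∈ A := Iff.rfl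

/-- The map `B / A → C / A` induced by `B ≤ C`. -/
def relQInc (A : Submodule K V) {B C : Submodule K V} (hBC : B ≤ C) : RelQ A B →ₗ[K] RelQ A C :=
  Submodule.mapQ _ _ (Submodule.inclusion hBC)
    (show A.submoduleOf B ≤ Submodule.comap (Submodule.inclusion hBC) (A.submoduleOf C) from
      fun _ hx => hx)

/-- The map `C / A → C / B` induced by `A ≤ B`. -/
def relQProj {A B : Submodule K V} (hAB : A ≤ B) (C : Submodule K V) : RelQ A C →ₗ[K] RelQ B C :=
  Submodule.mapQ _ _ LinearMap.id
    (show A.submoduleOf C ≤ Submodule.comap LinearMap.id (B.submoduleOf C) from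
      fun _ hx => hAB hx)

theorem relQInc_mk (A : Submodule K V) {B C : Submodule K V} (hBC : B ≤ C) (x : ↥B) :
    relQInc A hBC (Submodule.Quotient.mk x) = Submodule.Quotient.mk (Submodule.inclusion hBC x) :=
  rfl

theorem relQProj_mk {A B : Submodule K V} (hAB : A ≤ B) (C : Submodule K V) (x : ↥C) :
    relQProj hAB C (Submodule.Quotient.mk x) = Submodule.Quotient.mk x :=
  rfl

theorem relQInc_injective (A : Submodule K V) {B C : Submodule K V} (hBC : B ≤ C) :
    Function.Injective (relQInc A hBC) := by
  rw [← LinearMap.ker_eq_bot, LinearMap.ker_eq_bot']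
  intro x hx
  induction x using Submodule.Quotient.induction_on with
  | _ x =>
    rw [relQInc_mk, Submodule.Quotient.mk_eq_zero] at hx
    rw [Submodule.Quotient.mk_eq_zero]
    exact hx

theorem relQProj_surjective {A B : Submodule K V} (hAB : A ≤ B) (C : Submodule K V) :
    Function.Surjective (relQProj hAB C) := by
  intro y
  induction y using Submodule.Quotient.induction_on with
  | _ c => exact ⟨Submodule.Quotient.mk c, rfl⟩

theorem ker_relQProj {A B C : Submodule K V} (hAB : A ≤ B) (hBC : B ≤ C) :
    LinearMap.ker (relQProj hAB C) = LinearMap.range (relQInc A hBC) := by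
  ext x
  induction x using Submodule.Quotient.induction_on with
  | _ c =>
    rw [LinearMap.mem_ker, relQProj_mk, Submodule.Quotient.mk_eq_zero, LinearMap.mem_range]
    constructor
    · intro hc
      exact ⟨Submodule.Quotient.mk ⟨(c : V), hc⟩, rfl⟩
    · rintro ⟨y, hy⟩
      induction y using Submodule.Quotient.induction_on with
      | _ b =>
        rw [relQInc_mk, Submodule.Quotient.eq] at hy
        have h1 : ((Submodule.inclusion hBC b - c : ↥C) : V) ∈ A := hy
        have h2 : (c : V) = (b : V) - ((Submodule.inclusion hBC b - c : ↥C) : V) := by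
          simp
        show (c : V) ∈ B
        rw [h2]
        exact B.sub_mem b.2 (hAB h1)

/-- **Additivity of relative dimension along a chain `A ≤ B ≤ C`.** -/
theorem relQ_additive {A B C : Submodule K V} (hAB : A ≤ B) (hBC : B ≤ C)
    [Module.Finite K (RelQ A B)] [Module.Finite K (RelQ B C)] :
    Module.Finite K (RelQ A C) ∧
      Module.finrank K (RelQ A C) =
        Module.finrank K (RelQ A B) + Module.finrank K (RelQ B C) := by
  set f := relQInc A hBC
  set g := relQProj hAB C
  set N : Submodule K (RelQ A C) := LinearMap.range f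
  have eN : RelQ A B ≃ₗ[K] ↥N := LinearEquiv.ofInjective f (relQInc_injective A hBC)
  have eQ : (RelQ A C ⧸ N) ≃ₗ[K] RelQ B C := by
    have h := g.quotKerEquivOfSurjective (relQProj_surjective hAB C)
    rw [show LinearMap.ker g = N from ker_relQProj hAB hBC] at h
    exact h
  have : Module.Finite K ↥N := Module.Finite.equiv eN
  have : Module.Finite K (RelQ A C ⧸ N) := Module.Finite.equiv eQ.symm
  have hfin : Module.Finite K (RelQ A C) := Module.Finite.of_submodule_quotient N
  refine ⟨hfin, ?_⟩
  have h := N.finrank_quotient_add_finrank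
  rw [← h, eN.finrank_eq, eQ.finrank_eq, add_comm]

/-- `A / A` is trivial. -/
theorem relQ_self (A : Submodule K V) :
    Module.Finite K (RelQ A A) ∧ Module.finrank K (RelQ A A) = 0 := by
  have hsub : Subsingleton (RelQ A A) := by
    rw [Submodule.Quotient.subsingleton_iff]
    exact Submodule.submoduleOf_self A
  exact ⟨inferInstance, Module.finrank_zero_of_subsingleton⟩

end Fermat.Agent.RRh67
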