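/-
RR brick (helper67): the "adelic half" of Riemann's theorem for the prelude function-field API:
for divisors `D' ≤ D`, `dim_K A(D) / A(D') = deg D - deg D'`   (`A(D) = repartitionsOf D`),
assuming only that the residue fields are finite over `K`.
-/
import Mathlib
import Fermat.Prelude.Def_AlgebraicCurve_Repartitions
import Fermat.Prelude.Def_AlgebraicCurve_IsCurveOver
import Fermat.Agent.RR_helper67.WeakApprox
import Fermat.Agent.RR_helper67.RelQuot

set_option autoImplicit false

noncomputable section

open AlgebraicCurve WithZero IsDedekindDomain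

namespace Fermat.Agent.RRh67

variable {K F : Type*} [Field K] [Field F] [Algebra K F]

/-! ### evaluation of repartitions -/

/-- Evaluation of a repartition at a place, as a `K`-linear map. -/
def evalAt (v : Place K F) : ↥(repartitions K F) →ₗ[K] F where
  toFun α := (α : Place K F → F) v
  map_add' _ _ := rfl
  map_smul' _ _ := rfl

@[simp] theorem evalAt_apply (v : Place K F) (α : ↥(repartitions K F)) :
    evalAt v α = (α : Place K F → F) v := rfl

theorem mem_repartitionsOf_iff' {D : Divisor K F} {α : ↥(repartitions K F)} :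
    α ∈ repartitionsOf D ↔ ∀ v : Place K F, v.adicValuation (evalAt v α) ≤ exp (D v) := Iff.rfl

/-- The repartition which is `x` at `v` and `0` elsewhere. -/
def singleRep (v : Place K F) (x : F) : ↥(repartitions K F) := by
  classical
  exact ⟨Pi.single v x, mem_repartitions_of_finite <| (Set.finite_singleton v).subset
    fun w hw => by
      by_contra hne
      apply hw
      have hne' : w ≠ v := hne
      have : (Pi.single v x : Place K F → F) w = 0 := by
        rw [Pi.single_apply, if_neg hne']
      rw [this, map_zero]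
      exact zero_le⟩

theorem evalAt_singleRep_same (v : Place K F) (x : F) : evalAt v (singleRep v x) = x := by
  classical
  simp [singleRep]

theorem evalAt_singleRep_of_ne {v w : Place K F} (h : w ≠ v) (x : F) :
    evalAt w (singleRep v x) = 0 := by
  classical
  simp [singleRep, h]


/-! ### one step `A(E) ⊆ A(E + v)` -/

theorem add_single_apply_same (E : Divisor K F) (v : Place K F) :
    (E + Finsupp.single v 1 : Divisor K F) v = E v + 1 := by
  rw [Finsupp.add_apply, Finsupp.single_eq_same]

theorem add_single_apply_of_ne (E : Divisor K F) {v w : Place K F} (h : w ≠ v) :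
    (E + Finsupp.single v 1 : Divisor K F) w = E w := by
  rw [Finsupp.add_apply, Finsupp.single_eq_of_ne h, add_zero]

theorem le_add_single (E : Divisor K F) (v : Place K F) : E ≤ E + Finsupp.single v 1 := by
  intro w
  rw [Finsupp.add_apply]
  have : (0 : ℤ) ≤ (Finsupp.single v (1 : ℤ)) w := by
    classical
    rw [Finsupp.single_apply]
    split_ifs <;> norm_num
  linarith

/-- `α ↦ α_v · π^(E v + 1)`, with values in the valuation ring of `v`. -/
def stepToInt (E : Divisor K F) (v : Place K F) {π : v.toValuationSubring} (hπ : Irreducible π) :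
    ↥(repartitionsOf (E + Finsupp.single v 1)) →ₗ[K] ↥v.toValuationSubring where
  toFun α := ⟨evalAt v α.1 * (π : F) ^ (E v + 1), by
    rw [mem_toValuationSubring_iff, map_mul, adicValuation_zpow_irreducible v hπ]
    have h := α.2 v
    rw [add_single_apply_same] at h
    calc v.adicValuation (evalAt v α.1) * exp (-(E v + 1))
        ≤ exp (E v + 1) * exp (-(E v + 1)) := mul_le_mul_left h _
      _ = 1 := by rw [← exp_add]; simp⟩
  map_add' α β := by
    apply Subtype.ext
    show evalAt v (α.1 + β.1) * _ = evalAt v α.1 * _ + evalAt v β.1 * _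
    rw [map_add, add_mul]
  map_smul' c α := by
    apply Subtype.ext
    show evalAt v (c • α.1) * _ = algebraMap K F c * (evalAt v α.1 * _)
    rw [map_smul, Algebra.smul_def, mul_assoc]

theorem coe_stepToInt (E : Divisor K F) (v : Place K F) {π : v.toValuationSubring}
    (hπ : Irreducible π) (α : ↥(repartitionsOf (E + Finsupp.single v 1))) :
    ((stepToInt E v hπ α : ↥v.toValuationSubring) : F) = evalAt v α.1 * (π : F) ^ (E v + 1) := rfl


/-- The residue map of the valuation ring of `v`, as a `K`-linear map. -/
def resLin (v : Place K F) : ↥v.toValuationSubring →ₗ[K] v.ResidueField :=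
  (IsScalarTower.toAlgHom K ↥v.toValuationSubring v.ResidueField).toLinearMap

theorem resLin_apply (v : Place K F) (a : ↥v.toValuationSubring) :
    resLin v a = IsLocalRing.residue ↥v.toValuationSubring a := rfl

theorem resLin_surjective (v : Place K F) : Function.Surjective (resLin v) :=
  IsLocalRing.residue_surjective

theorem resLin_eq_zero_iff (v : Place K F) (a : ↥v.toValuationSubring) :
    resLin v a = 0 ↔ v.adicValuation (a : F) < 1 := by
  rw [resLin_apply, IsLocalRing.residue_eq_zero_iff, IsLocalRing.mem_maximalIdeal,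
    mem_nonunits_iff, ← v.adicValuation_coe_eq_one_iff]
  have hle : v.adicValuation (a : F) ≤ 1 := v.adicValuation_le_one_of_mem a.2
  exact ⟨fun h => lt_of_le_of_ne hle h, fun h => h.ne⟩

/-- In `ℤᵐ⁰`, `x < exp n ↔ x ≤ exp (n - 1)`. -/
theorem lt_exp_iff_le_exp_sub_one (x : ℤᵐ⁰) (n : ℤ) : x < exp n ↔ x ≤ exp (n - 1) := by
  rcases eq_or_ne x 0 with rfl | hx
  · simp
  · obtain ⟨k, rfl⟩ : ∃ k : ℤ, x = exp k := ⟨log x, (exp_log hx).symm⟩
    rw [exp_lt_exp, exp_le_exp]
    omega

/-- The step map `A(E + v) → k(v)`. -/
def stepMap (E : Divisor K F) (v : Place K F) {π : v.toValuationSubring} (hπ : Irreducible π) :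
    ↥(repartitionsOf (E + Finsupp.single v 1)) →ₗ[K] v.ResidueField :=
  (resLin v).comp (stepToInt E v hπ)

theorem stepMap_surjective (E : Divisor K F) (v : Place K F) {π : v.toValuationSubring}
    (hπ : Irreducible π) : Function.Surjective (stepMap E v hπ) := by
  intro c
  obtain ⟨a, rfl⟩ := resLin_surjective v c
  have hπF : (π : F) ≠ 0 := by
    simpa [ne_eq, ZeroMemClass.coe_eq_zero] using hπ.ne_zero
  -- the repartition `a · π^(-(E v + 1))` at `v`, zero elsewhere
  have hmem : singleRep v ((a : F) * (π : F) ^ (-(E v + 1))) ∈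
      repartitionsOf (E + Finsupp.single v 1) := by
    intro w
    by_cases hw : w = v
    · subst hw
      show w.adicValuation (evalAt w (singleRep w _)) ≤ _
      rw [evalAt_singleRep_same, add_single_apply_same, map_mul,
        adicValuation_zpow_irreducible w hπ, neg_neg]
      exact mul_le_of_le_one_left' (w.adicValuation_le_one_of_mem a.2)
    · show w.adicValuation (evalAt w (singleRep v _)) ≤ _
      rw [evalAt_singleRep_of_ne hw, map_zero]
      exact zero_le
  refine ⟨⟨_, hmem⟩, ?_⟩
  show resLin v (stepToInt E v hπ ⟨_, hmem⟩) = resLin v a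
  congr 1
  apply Subtype.ext
  rw [coe_stepToInt]
  show evalAt v (singleRep v _) * _ = _
  rw [evalAt_singleRep_same, mul_assoc, ← zpow_add₀ hπF]
  simp

theorem ker_stepMap (E : Divisor K F) (v : Place K F) {π : v.toValuationSubring}
    (hπ : Irreducible π) :
    LinearMap.ker (stepMap E v hπ) =
      (repartitionsOf E).submoduleOf (repartitionsOf (E + Finsupp.single v 1)) := by
  ext α
  rw [LinearMap.mem_ker, mem_submoduleOf_iff]
  show resLin v (stepToInt E v hπ α) = 0 ↔ _
  rw [resLin_eq_zero_iff, coe_stepToInt, map_mul, adicValuation_zpow_irreducible v hπ]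
  have key : v.adicValuation (evalAt v α.1) * exp (-(E v + 1)) < 1 ↔
      v.adicValuation (evalAt v α.1) ≤ exp (E v) := by
    have h1 : (1 : ℤᵐ⁰) = exp (E v + 1) * exp (-(E v + 1)) := by rw [← exp_add]; simp
    rw [h1, mul_lt_mul_iff_of_pos_right (exp_pos), lt_exp_iff_le_exp_sub_one]
    simp
  rw [key]
  constructor
  · intro h w
    by_cases hw : w = v
    · subst hw; exact h
    · have := α.2 w
      rwa [add_single_apply_of_ne E hw] at this
  · intro h
    exact h v

/-- **One step**: `A(E + v) / A(E) ≅ k(v)`. -/
theorem relQ_step (E : Divisor K F) (v : Place K F) [Module.Finite K v.ResidueField] :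
    Module.Finite K (RelQ (repartitionsOf E) (repartitionsOf (E + Finsupp.single v 1))) ∧
      Module.finrank K (RelQ (repartitionsOf E) (repartitionsOf (E + Finsupp.single v 1))) =
        v.deg := by
  obtain ⟨π, hπ⟩ := IsDiscreteValuationRing.exists_irreducible v.toValuationSubring
  have e := LinearMap.quotKerEquivOfSurjective (R := K)
    (M := ↥(repartitionsOf (E + Finsupp.single v 1))) (M₂ := v.ResidueField)
    (stepMap E v hπ) (stepMap_surjective E v hπ)
  rw [ker_stepMap] at e
  exact ⟨Module.Finite.equiv e.symm, e.finrank_eq⟩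


/-! ### the general case by induction -/

/-- The statement `dim A(D) / A(D') = deg D - deg D'` (with finiteness). -/
def AdeleDim (D' D : Divisor K F) : Prop :=
  Module.Finite K (RelQ (repartitionsOf D') (repartitionsOf D)) ∧
    (Module.finrank K (RelQ (repartitionsOf D') (repartitionsOf D)) : ℤ) =
      Divisor.degree D - Divisor.degree D'

theorem AdeleDim.refl (D : Divisor K F) : AdeleDim D D := by
  obtain ⟨h1, h2⟩ := relQ_self (repartitionsOf D)
  exact ⟨h1, by rw [h2]; simp⟩

theorem AdeleDim.trans {D₁ D₂ D₃ : Divisor K F} (h12 : D₁ ≤ D₂) (h23 : D₂ ≤ D₃)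
    (a : AdeleDim D₁ D₂) (b : AdeleDim D₂ D₃) : AdeleDim D₁ D₃ := by
  obtain ⟨fa, da⟩ := a
  obtain ⟨fb, db⟩ := b
  obtain ⟨h1, h2⟩ := relQ_additive (repartitionsOf_mono h12) (repartitionsOf_mono h23)
  refine ⟨h1, ?_⟩
  rw [h2, Nat.cast_add, da, db]
  ring

theorem AdeleDim.step (E : Divisor K F) (v : Place K F) [Module.Finite K v.ResidueField] :
    AdeleDim E (E + Finsupp.single v 1) := by
  obtain ⟨h1, h2⟩ := relQ_step E v
  refine ⟨h1, ?_⟩
  rw [h2, map_add, Divisor.degree_single]
  ring

/-- The divisor attached to an `ℕ`-valued finitely supported function. -/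
def toDiv (E : Place K F →₀ ℕ) : Divisor K F := E.mapRange (Nat.cast : ℕ → ℤ) Nat.cast_zero

theorem toDiv_zero : toDiv (0 : Place K F →₀ ℕ) = 0 := Finsupp.mapRange_zero

theorem toDiv_add (f g : Place K F →₀ ℕ) : toDiv (f + g) = toDiv f + toDiv g :=
  Finsupp.mapRange_add (hf := Nat.cast_zero) Nat.cast_add f g

theorem toDiv_single (v : Place K F) (b : ℕ) :
    toDiv (Finsupp.single v b) = Finsupp.single v (b : ℤ) :=
  Finsupp.mapRange_single

theorem toDiv_nonneg (f : Place K F →₀ ℕ) : 0 ≤ toDiv f := by
  intro v
  simp [toDiv]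

theorem le_add_toDiv (D : Divisor K F) (f : Place K F →₀ ℕ) : D ≤ D + toDiv f :=
  le_add_of_nonneg_right (toDiv_nonneg f)

theorem adeleDim_add_toDiv (hfin : ∀ v : Place K F, Module.Finite K v.ResidueField)
    (E : Place K F →₀ ℕ) : ∀ D' : Divisor K F, AdeleDim D' (D' + toDiv E) := by
  induction E using Finsupp.induction_linear with
  | zero =>
    intro D'
    rw [toDiv_zero, add_zero]
    exact AdeleDim.refl D'
  | add f g hf hg =>
    intro D'
    rw [toDiv_add, ← add_assoc]
    exact AdeleDim.trans (le_add_toDiv _ _) (le_add_toDiv _ _) (hf D') (hg (D' + toDiv f))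
  | single v b =>
    induction b with
    | zero =>
      intro D'
      rw [Finsupp.single_zero, toDiv_zero, add_zero]
      exact AdeleDim.refl D'
    | succ b ih =>
      intro D'
      rw [Finsupp.single_add, toDiv_add, ← add_assoc, toDiv_single v 1, Nat.cast_one]
      have := hfin v
      exact AdeleDim.trans (le_add_toDiv _ _) (le_add_single _ v) (ih D') (AdeleDim.step _ v)

/-- **The adelic half of Riemann's theorem**: for `D' ≤ D`, the quotient `A(D) / A(D')` is
finite-dimensional over `K` of dimension `deg D - deg D'`. -/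
theorem adeleDim_of_le (hfin : ∀ v : Place K F, Module.Finite K v.ResidueField)
    {D' D : Divisor K F} (h : D' ≤ D) : AdeleDim D' D := by
  have hE : D = D' + toDiv ((D - D').mapRange Int.toNat Int.toNat_zero) := by
    ext v
    have hv : D' v ≤ D v := h v
    simp only [toDiv, Finsupp.add_apply, Finsupp.mapRange_apply, Finsupp.sub_apply]
    rw [Int.toNat_of_nonneg (by linarith)]
    ring
  rw [hE]
  exact adeleDim_add_toDiv hfin _ D'

theorem finite_relQ_repartitionsOf (hfin : ∀ v : Place K F, Module.Finite K v.ResidueField)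
    {D' D : Divisor K F} (h : D' ≤ D) :
    Module.Finite K (RelQ (repartitionsOf D') (repartitionsOf D)) :=
  (adeleDim_of_le hfin h).1

theorem finrank_relQ_repartitionsOf (hfin : ∀ v : Place K F, Module.Finite K v.ResidueField)
    {D' D : Divisor K F} (h : D' ≤ D) :
    (Module.finrank K (RelQ (repartitionsOf D') (repartitionsOf D)) : ℤ) =
      Divisor.degree D - Divisor.degree D' :=
  (adeleDim_of_le hfin h).2


/-- Version for curves (`IsCurveOver` supplies the finiteness of the residue fields). -/
theorem adeleDim_of_le_curve [IsCurveOver K F] {D' D : Divisor K F} (h : D' ≤ D) :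
    AdeleDim D' D :=
  adeleDim_of_le (fun v => IsCurveOver.finiteResidue v) h

end Fermat.Agent.RRh67
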